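import Fermat.Agent.S13.H64.FreyP
import Fermat.Agent.S13.H891.Frey
import Fermat.Agent.S13.Skel
import Fermat.Agent.S54.FrobExists

/-!
# S13 / T5 in the frozen interface shape

`Fermat.Agent.S13.H64.T5`: for every Galois-stable `N ≠ ⊥, ⊤` in `E[p]` of the Frey curve there
is a valuation subring `A` of `ℚ̄` over `p` whose inertia group acts trivially on `N` or on
`E[p] / N`.  Also `T1'` (`frey_exists_divpoly`): an integral `p`-division polynomial with leading
coefficient `p`.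
-/

set_option autoImplicit false
set_option linter.unusedSectionVars false
set_option linter.unusedVariables false

namespace Fermat.Agent.S13.H64

open WeierstrassCurve WeierstrassCurve.Affine WeierstrassCurve.Affine.Point Polynomial
open Fermat.Agent.S05 Fermat.Agent.S05.SameRed Fermat.Agent.S05.Assemble

/-- `32 ∣ b ^ p` for a Frey package. -/
lemma frey_b_pow (P : FreyPackage) : ∃ t : ℤ, P.b ^ P.p = 32 * t := by
  have h2 : (2 : ℤ) ∣ P.b := (ZMod.intCast_zmod_eq_zero_iff_dvd P.b 2).1 P.hb2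
  obtain ⟨s, hs⟩ := h2
  have hp5 := P.hp5
  obtain ⟨k, hk⟩ : ∃ k, P.p = 5 + k := ⟨P.p - 5, by omega⟩
  refine ⟨2 ^ k * s ^ P.p, ?_⟩
  rw [hs, mul_pow]
  conv_lhs => rw [hk, pow_add]
  rw [← hk]
  ring

/-- **(T1')** An integral `p`-division polynomial for the Frey curve: leading coefficient `p`,
vanishing at the `x`-coordinates of all nonzero `p`-torsion points over `ℚ̄`. -/
theorem frey_exists_divpoly (P : FreyPackage) : ∃ Q : ℤ[X], Q.leadingCoeff = P.p ∧
    ∀ (x y : Qb) (h : (P.freyCurve⁄Qb).Nonsingular x y),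
      (P.p : ℤ) • Point.some x y h = 0 → aeval x Q = 0 := by
  obtain ⟨t, ht⟩ := frey_b_pow P
  obtain ⟨m, hm⟩ := P.hp_odd
  have hm1 : 1 ≤ m := by have := P.hp5; omega
  have hfB : fB P = 32 * (t : Qb) := by
    simp only [fB]; rw [ht]; push_cast; ring
  have h₂ : (Int.castRingHom Qb) (P.b ^ P.p - P.a ^ P.p) = (P.freyCurve⁄Qb).b₂ := by
    simp only [WeierstrassCurve.b₂, frey_a₁, frey_a₂, fA, fB, eq_intCast]
    push_cast
    ring
  have h₄ : (Int.castRingHom Qb) (-(P.a ^ P.p) * (4 * t)) = (P.freyCurve⁄Qb).b₄ := by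
    simp only [WeierstrassCurve.b₄, frey_a₁, frey_a₃, frey_a₄, hfB, fA, eq_intCast]
    push_cast
    ring
  have h₆ : (Int.castRingHom Qb) 0 = (P.freyCurve⁄Qb).b₆ := by
    simp only [WeierstrassCurve.b₆, frey_a₃, frey_a₆]
    simp
  have h₈ : (Int.castRingHom Qb) (-(P.a ^ P.p * (2 * t)) ^ 2) = (P.freyCurve⁄Qb).b₈ := by
    simp only [WeierstrassCurve.b₈, frey_a₁, frey_a₃, frey_a₄, frey_a₆, hfB, fA, eq_intCast]
    push_cast
    ring
  obtain ⟨Q, hdeg, hcoeff, hroot⟩ := H891.exists_integral_poly (P.freyCurve⁄Qb)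
    (Int.castRingHom Qb) _ _ _ _ h₂ h₄ h₆ h₈ m hm1
  have hp0 : ((2 * m + 1 : ℕ) : ℤ) ≠ 0 := by
    have : 0 < 2 * m + 1 := by omega
    exact_mod_cast this.ne'
  have hnat : Q.natDegree = 2 * m ^ 2 + 2 * m :=
    natDegree_eq_of_le_of_coeff_ne_zero hdeg (by rw [hcoeff]; exact hp0)
  refine ⟨Q, ?_, ?_⟩
  · rw [leadingCoeff, hnat, hcoeff, hm]
  · intro x y h hP
    rw [natCast_zsmul, hm] at hP
    have := (hroot (Point.some x y h) (Point.some_ne_zero h)).mp hP
    have hmap : algebraMap ℤ Qb = Int.castRingHom Qb := RingHom.ext_int _ _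
    rw [aeval_def, hmap, eval₂_eq_eval_map]
    exact this

/-- A proper submodule of `E[p]` is a line: any nonzero element generates it over `ℤ`. -/
theorem frey_line (P : FreyPackage)
    (N : Submodule (ZMod P.p) (Submodule.torsionBy ℤ (P.freyCurve⁄Qb).Point P.p))
    (htop : N ≠ ⊤) : ∀ x ∈ N, x ≠ 0 → ∀ y ∈ N, ∃ k : ℤ, y = k • x := by
  have : Fact P.p.Prime := ⟨P.pp⟩
  obtain ⟨-, hfin, hcard⟩ := H891.T1_frey P
  have : Finite (Skel.Vp P) := hfin
  have : Module.Finite (ZMod P.p) (Skel.Vp P) := Module.Finite.of_finite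
  have h2 : Module.finrank (ZMod P.p) (Skel.Vp P) ≤ 2 := Skel.finrank_le_two P hfin hcard
  have hlt : Module.finrank (ZMod P.p) N < Module.finrank (ZMod P.p) (Skel.Vp P) :=
    Submodule.finrank_lt htop
  have h1 : Module.finrank (ZMod P.p) N ≤ 1 := by omega
  obtain ⟨v, hv⟩ := finrank_le_one_iff.1 h1
  intro x hx hx0 y hy
  obtain ⟨a, ha⟩ := hv ⟨x, hx⟩
  obtain ⟨b, hb⟩ := hv ⟨y, hy⟩
  have ha0 : a ≠ 0 := by
    rintro rfl
    rw [zero_smul] at ha
    exact hx0 (congrArg Subtype.val ha.symm)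
  have hyx : (⟨y, hy⟩ : N) = (b * a⁻¹) • (⟨x, hx⟩ : N) := by
    rw [← ha, smul_smul, mul_assoc, inv_mul_cancel₀ ha0, mul_one, hb]
  have hyx' : y = (b * a⁻¹) • x := congrArg Subtype.val hyx
  refine ⟨((b * a⁻¹).val : ℤ), ?_⟩
  rw [hyx']
  conv_lhs => rw [← ZMod.natCast_zmod_val (b * a⁻¹)]
  rw [Nat.cast_smul_eq_nsmul, natCast_zsmul]

/-- **(T5)**, frozen interface shape. -/
theorem T5 (P : FreyPackage)
    (N : Submodule (ZMod P.p) (Submodule.torsionBy ℤ (P.freyCurve⁄(AlgebraicClosure ℚ)).Point P.p))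
    (hN : IsGaloisStable (K := AlgebraicClosure ℚ) ℚ N) (hbot : N ≠ ⊥) (htop : N ≠ ⊤) :
    ∃ A : ValuationSubring (AlgebraicClosure ℚ), A.LiesOverPrime P.p ∧
      ((∀ σ ∈ A.inertiaSubgroupIn ℚ, ∀ x ∈ N, σ • x = x) ∨
       (∀ σ ∈ A.inertiaSubgroupIn ℚ,
          ∀ x : Submodule.torsionBy ℤ (P.freyCurve⁄(AlgebraicClosure ℚ)).Point P.p,
            σ • x - x ∈ N)) := by
  obtain ⟨A, hA⟩ := Fermat.Agent.S54.exists_valuationSubring_liesOver P.p P.pp
  obtain ⟨Q, hQlc, hQ⟩ := frey_exists_divpoly P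
  exact ⟨A, hA, frey_inertia_dichotomy_at_p P A hA Q hQlc hQ N hN hbot (frey_line P N htop)⟩

end Fermat.Agent.S13.H64
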