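import Fermat.Agent.S13.H64.AtP
import Fermat.Agent.S54.FrobLift

/-!
# S13 / T5: inertia at `p` acts trivially on a stable line of the Frey curve or on the quotient

Final statement of piece T5 for the Frey curve (everything at the prime `p = P.p`).
-/

set_option autoImplicit false
set_option linter.unusedSectionVars false
set_option linter.unusedVariables false

namespace Fermat.Agent.S13.H64

open WeierstrassCurve WeierstrassCurve.Affine WeierstrassCurve.Affine.Point Polynomial
open Fermat.Agent.S05 Fermat.Agent.S05.SameRed Fermat.Agent.S05.Assemble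

/-- **(T5a)** in torsion-module form. -/
theorem frey_inKer_smul_sub_torsion (P : FreyPackage)
    (A : ValuationSubring Qb) (hA : A.LiesOverPrime P.p)
    (σ : Qb ≃ₐ[ℚ] Qb) (hσ : σ ∈ A.inertiaSubgroupIn ℚ)
    (pt : Submodule.torsionBy ℤ (P.freyCurve⁄Qb).Point P.p)
    (hpt : ¬ InKer (P.freyCurve⁄Qb) A.valuation (pt : (P.freyCurve⁄Qb).Point)) :
    InKer (P.freyCurve⁄Qb) A.valuation
      ((σ • pt - pt : Submodule.torsionBy ℤ (P.freyCurve⁄Qb).Point P.p) :
        (P.freyCurve⁄Qb).Point) := by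
  have hp2 : P.p ≠ 2 := by have := P.hp5; omega
  obtain ⟨Q, hQ⟩ := pt
  have hP : P.p • Q = 0 := by
    have := (Submodule.mem_torsionBy_iff _ _).mp hQ
    rwa [natCast_zsmul] at this
  rcases Q with _ | ⟨x, y, h⟩
  · exact absurd trivial hpt
  · have hx : A.valuation x ≤ 1 := not_lt.mp hpt
    exact frey_inKer_smul_sub P P.pp hp2 A hA σ hσ h hP hx

/-- **(T5)** For the Frey curve, a valuation subring `A` of `ℚ̄` over `p`, and a Galois-stable
line `N0` in `E[p]`: the inertia group at `A` acts trivially on `N0` or on `E[p] / N0`.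
`Q` is any integer polynomial with leading coefficient `p` vanishing at the `x`-coordinates of
the nonzero `p`-torsion points (the `p`-division polynomial, piece T1). -/
theorem frey_inertia_dichotomy_at_p (P : FreyPackage)
    (A : ValuationSubring Qb) (hA : A.LiesOverPrime P.p)
    (Q : ℤ[X]) (hQlc : Q.leadingCoeff = P.p)
    (hQ : ∀ (x y : Qb) (h : (P.freyCurve⁄Qb).Nonsingular x y),
      (P.p : ℤ) • Point.some x y h = 0 → aeval x Q = 0)
    (N0 : Submodule (ZMod P.p) (Submodule.torsionBy ℤ (P.freyCurve⁄Qb).Point P.p))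
    (hstab : IsGaloisStable ℚ N0) (hN0 : N0 ≠ ⊥)
    (hline : ∀ x ∈ N0, x ≠ 0 → ∀ y ∈ N0, ∃ k : ℤ, y = k • x) :
    (∀ σ ∈ A.inertiaSubgroupIn ℚ, ∀ x ∈ N0, σ • x = x) ∨
    (∀ σ ∈ A.inertiaSubgroupIn ℚ,
      ∀ x : Submodule.torsionBy ℤ (P.freyCurve⁄Qb).Point P.p, σ • x - x ∈ N0) := by
  have : IsGalois ℚ Qb := Fermat.Agent.S54.isGalois_algebraicClosure_rat
  have hp2 : P.p ≠ 2 := by have := P.hp5; omega
  have hW := frey_integral (P := P) hA P.pp hp2
  exact inertia_line_dichotomy A P.p P.pp hA hW Q hQlc hQ N0 hstab hN0 hline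
    (fun σ hσ pt hpt => frey_inKer_smul_sub_torsion P A hA σ hσ pt hpt)

end Fermat.Agent.S13.H64
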