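import Mathlib

/-!
# S13 / T5b: a Gauss-lemma bound for split polynomials with integral coefficients

`v : Valuation K Γ₀`.  If `f = C c * ∏_{r ∈ s} (X - C r)` has all coefficients `v`-integral then
`v c * ∏_{r ∈ s, 1 < v r} v r ≤ 1`.
-/

set_option autoImplicit false

namespace Fermat.Agent.S13.H64

open Polynomial

variable {K : Type*} [Field K] {Γ₀ : Type*} [LinearOrderedCommGroupWithZero Γ₀]
  (v : Valuation K Γ₀)

/-- Product of `X - C r` over integral `r` has integral coefficients. -/
lemma coeff_prod_X_sub_C_le_one (s : Multiset K) (hs : ∀ r ∈ s, v r ≤ 1) (n : ℕ) :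
    v ((s.map (fun r => X - C r)).prod.coeff n) ≤ 1 := by
  induction s using Multiset.induction_on generalizing n with
  | empty =>
    simp only [Multiset.map_zero, Multiset.prod_zero, coeff_one]
    split_ifs <;> simp
  | cons a s ih =>
    have ha : v a ≤ 1 := hs a (Multiset.mem_cons_self a s)
    have ih' := ih (fun r hr => hs r (Multiset.mem_cons_of_mem hr))
    rw [Multiset.map_cons, Multiset.prod_cons, sub_mul, coeff_sub, coeff_C_mul]
    refine (v.map_sub _ _).trans (max_le ?_ ?_)
    · cases n with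
      | zero => simp
      | succ m => rw [coeff_X_mul]; exact ih' m
    · rw [map_mul]; exact mul_le_one' ha (ih' n)

/-- Multiplying by `1 - C a * X` with `v a < 1` preserves integrality of coefficients and the
property that the `k`-th coefficient is a unit. -/
lemma coeff_mul_one_sub_CX (F : K[X]) (k : ℕ) (hF : ∀ n, v (F.coeff n) ≤ 1)
    (hk : v (F.coeff k) = 1) (a : K) (ha : v a < 1) :
    (∀ n, v (((1 - C a * X) * F).coeff n) ≤ 1) ∧ v (((1 - C a * X) * F).coeff k) = 1 := by
  have hcoeff : ∀ n, ((1 - C a * X) * F).coeff n =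
      F.coeff n - a * (if n = 0 then 0 else F.coeff (n - 1)) := by
    intro n
    rw [sub_mul, one_mul, coeff_sub, mul_assoc, coeff_C_mul]
    cases n with
    | zero => simp
    | succ m => rw [coeff_X_mul]; simp
  have hlt : ∀ n, v (a * (if n = 0 then 0 else F.coeff (n - 1))) < 1 := by
    intro n
    rw [map_mul]
    split_ifs
    · simp
    · exact (mul_le_of_le_one_right' (hF _)).trans_lt ha
  refine ⟨fun n => ?_, ?_⟩
  · rw [hcoeff]
    exact (v.map_sub _ _).trans (max_le (hF n) (hlt n).le)
  · rw [hcoeff, v.map_sub_eq_of_lt_left (by rw [hk]; exact hlt k), hk]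

/-- Product over non-integral `r` of `1 - C r⁻¹ * X`, times an integral `G` with unit `k`-th
coefficient. -/
lemma coeff_prod_one_sub_mul (s : Multiset K) (hs : ∀ r ∈ s, 1 < v r) (G : K[X]) (k : ℕ)
    (hG : ∀ n, v (G.coeff n) ≤ 1) (hk : v (G.coeff k) = 1) :
    (∀ n, v (((s.map (fun r => 1 - C r⁻¹ * X)).prod * G).coeff n) ≤ 1) ∧
      v (((s.map (fun r => 1 - C r⁻¹ * X)).prod * G).coeff k) = 1 := by
  induction s using Multiset.induction_on with
  | empty => simpa using ⟨hG, hk⟩
  | cons a s ih =>
    have ha : 1 < v a := hs a (Multiset.mem_cons_self a s)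
    obtain ⟨h1, h2⟩ := ih (fun r hr => hs r (Multiset.mem_cons_of_mem hr))
    rw [Multiset.map_cons, Multiset.prod_cons, mul_assoc]
    exact coeff_mul_one_sub_CX v _ k h1 h2 a⁻¹ (by
      rw [map_inv₀]; exact inv_lt_one_of_one_lt₀ ha)

/-- Rewriting `∏ (X - C r)` for nonzero `r`. -/
lemma prod_X_sub_C_eq (s : Multiset K) (hs : ∀ r ∈ s, r ≠ 0) :
    (s.map (fun r => X - C r)).prod =
      C (s.map (fun r => -r)).prod * (s.map (fun r => 1 - C r⁻¹ * X)).prod := by
  induction s using Multiset.induction_on with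
  | empty => simp
  | cons a s ih =>
    have ha : a ≠ 0 := hs a (Multiset.mem_cons_self a s)
    rw [Multiset.map_cons, Multiset.prod_cons, Multiset.map_cons, Multiset.prod_cons,
      Multiset.map_cons, Multiset.prod_cons, ih (fun r hr => hs r (Multiset.mem_cons_of_mem hr)),
      C_mul]
    have : (X - C a : K[X]) = C (-a) * (1 - C a⁻¹ * X) := by
      rw [mul_sub, mul_one, ← mul_assoc, ← C_mul, neg_mul, mul_inv_cancel₀ ha]
      simp only [C_neg, C_1, neg_mul, one_mul, sub_neg_eq_add]
      ring
    rw [this]; ring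

lemma val_prod_neg (s : Multiset K) :
    v (s.map (fun r => -r)).prod = (s.map v).prod := by
  induction s using Multiset.induction_on with
  | empty => simp
  | cons a s ih =>
    rw [Multiset.map_cons, Multiset.prod_cons, Multiset.map_cons, Multiset.prod_cons, map_mul,
      Valuation.map_neg, ih]

/-- **Gauss bound.** If `f = C c * ∏_{r ∈ s} (X - C r)` has `v`-integral coefficients, then
`v c * ∏_{r ∈ s, 1 < v r} v r ≤ 1`. -/
theorem gauss_bound (c : K) (s : Multiset K)
    (hint : ∀ n, v ((C c * (s.map (fun r => X - C r)).prod).coeff n) ≤ 1) :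
    v c * ((s.filter (fun r => 1 < v r)).map v).prod ≤ 1 := by
  classical
  set s1 := s.filter (fun r => 1 < v r) with hs1
  set s0 := s.filter (fun r => ¬ 1 < v r) with hs0
  have hsplit : s = s1 + s0 := (Multiset.filter_add_not _ s).symm
  have h1 : ∀ r ∈ s1, 1 < v r := fun r hr => (Multiset.mem_filter.mp hr).2
  have h0 : ∀ r ∈ s0, v r ≤ 1 := fun r hr => not_lt.mp (Multiset.mem_filter.mp hr).2
  have h1ne : ∀ r ∈ s1, r ≠ 0 := by
    intro r hr h
    have := h1 r hr
    rw [h, map_zero] at this
    exact not_lt_zero this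
  set G := (s0.map (fun r => X - C r)).prod with hG
  have hGint : ∀ n, v (G.coeff n) ≤ 1 := coeff_prod_X_sub_C_le_one v s0 h0
  have hGmonic : G.Monic := monic_multiset_prod_of_monic _ _ (fun r _ => monic_X_sub_C r)
  have hGdeg : G.natDegree = Multiset.card s0 := by
    rw [hG, natDegree_multiset_prod_of_monic _ (by
      intro p hp
      obtain ⟨r, -, rfl⟩ := Multiset.mem_map.mp hp
      exact monic_X_sub_C r)]
    simp
  have hGk : v (G.coeff (Multiset.card s0)) = 1 := by
    rw [← hGdeg, ← leadingCoeff, hGmonic.leadingCoeff, map_one]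
  obtain ⟨-, hunit⟩ := coeff_prod_one_sub_mul v s1 h1 G _ hGint hGk
  have hf : C c * (s.map (fun r => X - C r)).prod =
      C (c * (s1.map (fun r => -r)).prod) * ((s1.map (fun r => 1 - C r⁻¹ * X)).prod * G) := by
    conv_lhs => rw [hsplit]
    rw [Multiset.map_add, Multiset.prod_add, prod_X_sub_C_eq s1 h1ne, C_mul]
    ring
  have := hint (Multiset.card s0)
  rw [hf, coeff_C_mul, map_mul, hunit, mul_one, map_mul, val_prod_neg] at this
  exact this

/-- Finset form of the Gauss bound: if `T` is a finite set of roots of `f`, all of valuation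
`> 1`, `f` splits with leading coefficient `c` and has integral coefficients, then
`v c * ∏_{r ∈ T} v r ≤ 1`. -/
theorem gauss_bound_finset [DecidableEq K] (c : K) (s : Multiset K)
    (hint : ∀ n, v ((C c * (s.map (fun r => X - C r)).prod).coeff n) ≤ 1)
    (T : Finset K) (hT : ∀ r ∈ T, r ∈ s ∧ 1 < v r) :
    v c * ∏ r ∈ T, v r ≤ 1 := by
  classical
  have hle : T.val ≤ s.filter (fun r => 1 < v r) := by
    rw [Multiset.le_iff_count]
    intro a
    by_cases ha : a ∈ T
    · rw [Multiset.count_eq_one_of_mem T.nodup ha]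
      exact Multiset.one_le_count_iff_mem.mpr (Multiset.mem_filter.mpr (hT a ha))
    · rw [Multiset.count_eq_zero_of_notMem ha]; exact Nat.zero_le _
  obtain ⟨u, hu⟩ := Multiset.le_iff_exists_add.mp hle
  have hu1 : ∀ r ∈ u, 1 ≤ v r := by
    intro r hr
    have : r ∈ s.filter (fun r => 1 < v r) := by rw [hu]; exact Multiset.mem_add.mpr (Or.inr hr)
    exact (Multiset.mem_filter.mp this).2.le
  have hprod_u : 1 ≤ (u.map v).prod := by
    apply Multiset.one_le_prod
    intro x hx
    obtain ⟨r, hr, rfl⟩ := Multiset.mem_map.mp hx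
    exact hu1 r hr
  have hgb := gauss_bound v c s hint
  rw [hu, Multiset.map_add, Multiset.prod_add] at hgb
  have hTprod : (T.val.map v).prod = ∏ r ∈ T, v r := rfl
  rw [hTprod] at hgb
  calc v c * ∏ r ∈ T, v r ≤ v c * ((∏ r ∈ T, v r) * (u.map v).prod) := by
        gcongr
        exact le_mul_of_one_le_right zero_le hprod_u
    _ ≤ 1 := hgb

end Fermat.Agent.S13.H64
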