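import Mathlib
import Fermat.Prelude.Def_FLTPrelim_Ramification
import Fermat.Agent.S54.ValRing
import Fermat.Agent.S54.FrobLift

/-!
# S13 / T5b2: the product of a Galois-stable finite set of non-integral algebraic numbers

For a valuation subring `A` of `ℚ̄` over `p` with valuation `v`: a rational number `q` with
`1 < v q` satisfies `(v p)⁻¹ ≤ v q`; the product of a Galois-stable finset is rational.
-/

set_option autoImplicit false

namespace Fermat.Agent.S13.H64

open Polynomial

section rat

variable {K : Type*} [Field K] [CharZero K]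

omit [CharZero K] in
/-- Integers are integral for every valuation subring. -/
lemma valuation_intCast_le_one (A : ValuationSubring K) (a : ℤ) : A.valuation (a : K) ≤ 1 :=
  (A.valuation_le_one_iff _).mpr (intCast_mem A a)

/-- An integer prime to `p` is a unit of every valuation subring over `p`. -/
lemma valuation_intCast_eq_one (A : ValuationSubring K) (p : ℕ) (hp : p.Prime)
    (hA : A.LiesOverPrime p) (a : ℤ) (ha : ¬ (p : ℤ) ∣ a) : A.valuation (a : K) = 1 := by
  refine le_antisymm (valuation_intCast_le_one A a) (not_lt.mp fun h => ha ?_)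
  exact Fermat.Agent.S54.dvd_of_intCast_mem_nonunits A p hp hA a
    ((ValuationSubring.mem_nonunits_iff A).mpr h)

/-- A rational number of valuation `> 1` at a valuation subring over `p` has valuation at least
`(v p)⁻¹`. -/
theorem inv_valuation_prime_le_of_one_lt (A : ValuationSubring K) (p : ℕ) (hp : p.Prime)
    (hA : A.LiesOverPrime p) (q : ℚ) (hq : 1 < A.valuation ((q : ℚ) : K)) :
    (A.valuation (p : K))⁻¹ ≤ A.valuation ((q : ℚ) : K) := by
  have hp0 : (p : K) ≠ 0 := by exact_mod_cast hp.ne_zero
  have hden0 : ((q.den : ℤ) : K) ≠ 0 := by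
    have := q.den_pos
    exact_mod_cast this.ne'
  have hqe : ((q : ℚ) : K) = (q.num : K) / ((q.den : ℤ) : K) := by
    conv_lhs => rw [← Rat.num_div_den q]
    push_cast
    rfl
  rw [hqe, map_div₀] at hq ⊢
  have hnum : A.valuation (q.num : K) ≤ 1 := valuation_intCast_le_one A _
  have hdenpos : 0 < A.valuation ((q.den : ℤ) : K) := (Valuation.pos_iff _).mpr hden0
  -- the denominator is a non-unit
  have hden_lt : A.valuation ((q.den : ℤ) : K) < 1 := by
    by_contra h
    have h1 : A.valuation ((q.den : ℤ) : K) = 1 :=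
      le_antisymm (valuation_intCast_le_one A _) (not_lt.mp h)
    rw [h1, div_one] at hq
    exact absurd hq (not_lt.mpr hnum)
  have hpd : (p : ℤ) ∣ (q.den : ℤ) :=
    Fermat.Agent.S54.dvd_of_intCast_mem_nonunits A p hp hA _
      ((ValuationSubring.mem_nonunits_iff A).mpr hden_lt)
  -- hence the numerator is a unit
  have hpn : ¬ (p : ℤ) ∣ q.num := by
    intro h
    have h1 : p ∣ q.num.natAbs := Int.natCast_dvd.mp h
    have h2 : p ∣ q.den := Int.natCast_dvd_natCast.mp hpd
    have := Nat.dvd_gcd h1 h2
    rw [q.reduced] at this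
    exact hp.one_lt.ne' (Nat.dvd_one.mp this)
  have hnum1 : A.valuation (q.num : K) = 1 := valuation_intCast_eq_one A p hp hA _ hpn
  obtain ⟨b', hb'⟩ := hpd
  have hden_le : A.valuation ((q.den : ℤ) : K) ≤ A.valuation (p : K) := by
    rw [hb']
    push_cast
    rw [map_mul]
    exact mul_le_of_le_one_right' (valuation_intCast_le_one A b')
  have hppos : 0 < A.valuation (p : K) := (Valuation.pos_iff _).mpr hp0
  rw [hnum1, one_div]
  exact (inv_le_inv₀ hppos hdenpos).mpr hden_le

end rat

section galois

variable {K : Type*} [Field K] [Algebra ℚ K] [IsGalois ℚ K]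

/-- An element fixed by the whole Galois group is rational. -/
theorem exists_rat_of_forall_fixed (c : K) (h : ∀ σ : K ≃ₐ[ℚ] K, σ c = c) :
    ∃ q : ℚ, algebraMap ℚ K q = c := by
  have hfix : c ∈ IntermediateField.fixedField (⊤ : Subgroup (K ≃ₐ[ℚ] K)) := by
    rintro ⟨g, -⟩
    exact h g
  rw [InfiniteGalois.fixedField_bot, IntermediateField.mem_bot] at hfix
  exact hfix

/-- The product of a Galois-stable finset is rational. -/
theorem exists_rat_prod_of_stable [DecidableEq K] (T : Finset K)
    (hT : ∀ σ : K ≃ₐ[ℚ] K, ∀ r ∈ T, σ r ∈ T) :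
    ∃ q : ℚ, algebraMap ℚ K q = ∏ r ∈ T, r := by
  apply exists_rat_of_forall_fixed
  intro σ
  rw [map_prod]
  have himg : T.image σ = T := by
    apply Finset.eq_of_subset_of_card_le
    · intro x hx
      obtain ⟨r, hr, rfl⟩ := Finset.mem_image.mp hx
      exact hT σ r hr
    · rw [Finset.card_image_of_injective _ σ.injective]
  conv_rhs => rw [← himg]
  rw [Finset.prod_image (fun x _ y _ hxy => σ.injective hxy)]

end galois

section main

variable {K : Type*} [Field K] [CharZero K] [Algebra ℚ K] [IsGalois ℚ K] [DecidableEq K]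

/-- **(T5b2)** A nonempty Galois-stable finset of elements of valuation `> 1` (at a valuation
subring over `p`) has product of valuation at least `(v p)⁻¹`. -/
theorem inv_valuation_prime_le_prod (A : ValuationSubring K) (p : ℕ) (hp : p.Prime)
    (hA : A.LiesOverPrime p) (T : Finset K) (hne : T.Nonempty)
    (hT : ∀ σ : K ≃ₐ[ℚ] K, ∀ r ∈ T, σ r ∈ T) (hv : ∀ r ∈ T, 1 < A.valuation r) :
    (A.valuation (p : K))⁻¹ ≤ ∏ r ∈ T, A.valuation r := by
  obtain ⟨q, hq⟩ := exists_rat_prod_of_stable T hT
  have hq' : ((q : ℚ) : K) = ∏ r ∈ T, r := by rw [← hq]; simp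
  have hprod : A.valuation (∏ r ∈ T, r) = ∏ r ∈ T, A.valuation r := map_prod _ _ _
  have hgt : 1 < ∏ r ∈ T, A.valuation r := by
    obtain ⟨r0, hr0⟩ := hne
    rw [← Finset.mul_prod_erase T _ hr0]
    have h1 : 1 ≤ ∏ r ∈ T.erase r0, A.valuation r :=
      Finset.one_le_prod' (fun r hr => (hv r (Finset.mem_of_mem_erase hr)).le)
    calc (1 : _) < A.valuation r0 := hv r0 hr0
      _ ≤ A.valuation r0 * ∏ r ∈ T.erase r0, A.valuation r :=
        le_mul_of_one_le_right zero_le h1
  rw [← hprod, ← hq'] at hgt ⊢
  exact inv_valuation_prime_le_of_one_lt A p hp hA q hgt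

end main

end Fermat.Agent.S13.H64
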