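import Mathlib
import Fermat.Prelude.Def_FLTPrelim_Ramification
import Fermat.Prelude.Def_FLTPrelim_GaloisRep
import Fermat.Agent.S05.SameRed
import Fermat.Agent.S05.GoodRed
import Fermat.Agent.S05.FG
import Fermat.Agent.S05.C1b
import Fermat.Agent.S13.H64.Gauss
import Fermat.Agent.S13.H64.RatProd

/-!
# S13 / T5: the analysis at `ℓ = p`

`A` a valuation subring of `K = ℚ̄` over `p`, `v` its valuation, `E₁ = InKer` the kernel of
reduction, `V = E[p](K)`, `N0 ⊆ V` a Galois-stable line.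

* `mem_of_inKer_of_line_le`: if `N0 ⊆ E₁` then `V ∩ E₁ ⊆ N0`
  (Gauss bound on the `p`-division polynomial + rationality of the product over `N0`).
* `inertia_line_dichotomy`: inertia at `A` acts trivially on `N0` or on `V / N0`.
-/

set_option autoImplicit false
set_option linter.unusedSectionVars false
set_option linter.unusedVariables false

namespace Fermat.Agent.S13.H64

open WeierstrassCurve WeierstrassCurve.Affine WeierstrassCurve.Affine.Point Polynomial
open Fermat.Agent.S05 Fermat.Agent.S05.SameRed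

section kernel

variable {K : Type*} [Field K] [DecidableEq K]
  {Γ₀ : Type*} [LinearOrderedCommGroupWithZero Γ₀]
  {W : Affine K} {v : Valuation K Γ₀}

lemma inKer_neg {P : W.Point} (hP : InKer W v P) : InKer W v (-P) := by
  rcases P with _ | ⟨x, y, h⟩
  · exact hP
  · rw [Point.neg_some]; exact hP

/-- The kernel of reduction is stable under multiplication by natural numbers. -/
lemma inKer_nsmul (hW : IntegralCoeffs W v) {P : W.Point} (hP : InKer W v P) (k : ℕ) :
    InKer W v (k • P) := by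
  rcases P with _ | ⟨x, y, h⟩
  · rw [show (Point.zero : W.Point) = 0 from rfl, smul_zero]; exact inKer_zero
  · have hx : 1 < v x := hP
    have hx0 : x ≠ 0 := by
      rintro rfl
      rw [_root_.map_zero] at hx
      exact not_lt_zero hx
    have hs : v x⁻¹ < 1 := by
      rw [map_inv₀]; exact inv_lt_one_of_one_lt₀ hx
    rcases (FG.good_all (C1b.isIntegralAt_of_integralCoeffs hW) h hx k).1 with
      ⟨h0, -⟩ | ⟨xk, yk, hk, hkP, hxk0, hlt⟩
    · rw [h0]; exact inKer_zero
    · rw [hkP, inKer_some]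
      have h1 : v ((k : K) ^ 2 * x⁻¹) ≤ v x⁻¹ := by
        rw [map_mul]
        exact mul_le_of_le_one_left' (by
          rw [map_pow]; exact pow_le_one₀ zero_le (FG.v_natCast_le_one v k))
      have h2 : v xk⁻¹ ≤ v x⁻¹ := by
        have : xk⁻¹ = (xk⁻¹ - (k : K) ^ 2 * x⁻¹) + (k : K) ^ 2 * x⁻¹ := by ring
        rw [this]
        exact (v.map_add _ _).trans (max_le hlt.le h1)
      have h3 : v xk⁻¹ < 1 := h2.trans_lt hs
      rw [map_inv₀] at h3
      have hxkpos : 0 < v xk := (Valuation.pos_iff v).mpr hxk0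
      by_contra hcon
      rw [not_lt] at hcon
      have : 1 ≤ (v xk)⁻¹ := (one_le_inv₀ hxkpos).mpr hcon
      exact absurd h3 (not_lt.mpr this)

/-- The kernel of reduction is stable under multiplication by integers. -/
lemma inKer_zsmul (hW : IntegralCoeffs W v) {P : W.Point} (hP : InKer W v P) (k : ℤ) :
    InKer W v (k • P) := by
  rcases Int.eq_nat_or_neg k with ⟨n, rfl | rfl⟩
  · rw [natCast_zsmul]; exact inKer_nsmul hW hP n
  · rw [neg_smul, natCast_zsmul]; exact inKer_neg (inKer_nsmul hW hP n)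

end kernel

section main

variable {K : Type*} [Field K] [CharZero K] [Algebra ℚ K] [IsGalois ℚ K] [IsAlgClosed K]
  [DecidableEq K] {W' : Affine ℚ}

/-- `r` is the `x`-coordinate of a nonzero point of `N0`. -/
def IsXOf {p : ℕ} (N0 : Submodule (ZMod p) (Submodule.torsionBy ℤ (W'⁄K).Point p)) (r : K) :
    Prop :=
  ∃ P ∈ N0, ∃ (y : K) (h : (W'⁄K).Nonsingular r y),
    (P : (W'⁄K).Point) = Point.some r y h

lemma smul_coe {p : ℕ} (σ : K ≃ₐ[ℚ] K) (P : Submodule.torsionBy ℤ (W'⁄K).Point p) :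
    ((σ • P : Submodule.torsionBy ℤ (W'⁄K).Point p) : (W'⁄K).Point) =
      σ • (P : (W'⁄K).Point) := rfl

lemma isXOf_map {p : ℕ} {N0 : Submodule (ZMod p) (Submodule.torsionBy ℤ (W'⁄K).Point p)}
    (hstab : IsGaloisStable ℚ N0) (σ : K ≃ₐ[ℚ] K) {r : K} (hr : IsXOf N0 r) :
    IsXOf N0 (σ r) := by
  obtain ⟨P, hP, y, h, hPe⟩ := hr
  refine ⟨σ • P, hstab σ P hP, σ y,
    (W'.baseChange_nonsingular σ.toAlgHom.injective r y).mpr h, ?_⟩
  rw [smul_coe, hPe]
  rfl

lemma aeval_eq_zero_of_mem {p : ℕ} (Q : ℤ[X])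
    (hQ : ∀ (x y : K) (h : (W'⁄K).Nonsingular x y),
      (p : ℤ) • Point.some x y h = 0 → aeval x Q = 0)
    (P : Submodule.torsionBy ℤ (W'⁄K).Point p) {x y : K} {h : (W'⁄K).Nonsingular x y}
    (hP : (P : (W'⁄K).Point) = Point.some x y h) : aeval x Q = 0 := by
  apply hQ x y h
  rw [← hP]
  exact (Submodule.mem_torsionBy_iff _ _).mp P.2

/-- **(T5b3)** If the Galois-stable nonzero submodule `N0` of `E[p]` lies in the kernel of
reduction at `A` (over `p`), then every `p`-torsion point in the kernel of reduction lies in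
`N0`. -/
theorem mem_of_inKer_of_line_le
    (A : ValuationSubring K) (p : ℕ) (hp : p.Prime) (hA : A.LiesOverPrime p)
    (Q : ℤ[X]) (hQlc : Q.leadingCoeff = p)
    (hQ : ∀ (x y : K) (h : (W'⁄K).Nonsingular x y),
      (p : ℤ) • Point.some x y h = 0 → aeval x Q = 0)
    (N0 : Submodule (ZMod p) (Submodule.torsionBy ℤ (W'⁄K).Point p))
    (hstab : IsGaloisStable ℚ N0) (hN0 : N0 ≠ ⊥)
    (hsub : ∀ P ∈ N0, InKer (W'⁄K) A.valuation (P : (W'⁄K).Point))
    (P' : Submodule.torsionBy ℤ (W'⁄K).Point p)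
    (hP' : InKer (W'⁄K) A.valuation (P' : (W'⁄K).Point)) : P' ∈ N0 := by
  classical
  set v := A.valuation with hv
  have hp0 : (p : K) ≠ 0 := by exact_mod_cast hp.ne_zero
  -- the polynomial over `K`
  set f : K[X] := Q.map (Int.castRingHom K) with hf
  have hinj : Function.Injective (Int.castRingHom K) := Int.cast_injective
  have hflc : f.leadingCoeff = (p : K) := by
    rw [hf, leadingCoeff_map_of_injective hinj, hQlc]; simp
  have hf0 : f ≠ 0 := by
    intro h0
    rw [h0, leadingCoeff_zero] at hflc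
    exact hp0 hflc.symm
  have hroot : ∀ x : K, aeval x Q = 0 → x ∈ f.roots := by
    intro x hx
    rw [aeval_def, algebraMap_int_eq] at hx
    rw [mem_roots hf0, IsRoot, hf, eval_map]
    exact hx
  have hfsplit : f = C (p : K) * (f.roots.map (fun r => X - C r)).prod := by
    have := (IsAlgClosed.splits f).eq_prod_roots
    rw [hflc] at this
    exact this
  have hint : ∀ n, v ((C (p : K) * (f.roots.map (fun r => X - C r)).prod).coeff n) ≤ 1 := by
    intro n
    rw [← hfsplit, hf, coeff_map]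
    exact valuation_intCast_le_one A _
  -- the set of `x`-coordinates of `N0`
  set T : Finset K := f.roots.toFinset.filter (fun r => IsXOf N0 r) with hT
  have hTmem : ∀ r, r ∈ T ↔ IsXOf N0 r := by
    intro r
    rw [hT, Finset.mem_filter, Multiset.mem_toFinset]
    refine ⟨fun h => h.2, fun h => ⟨?_, h⟩⟩
    obtain ⟨P, -, y, hns, hPe⟩ := h
    exact hroot r (aeval_eq_zero_of_mem Q hQ P hPe)
  have hTstab : ∀ σ : K ≃ₐ[ℚ] K, ∀ r ∈ T, σ r ∈ T := fun σ r hr =>
    (hTmem _).mpr (isXOf_map hstab σ ((hTmem r).mp hr))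
  have hTv : ∀ r ∈ T, 1 < v r := by
    intro r hr
    obtain ⟨P, hPN, y, hns, hPe⟩ := (hTmem r).mp hr
    have := hsub P hPN
    rw [hPe] at this
    exact this
  have hTne : T.Nonempty := by
    obtain ⟨P, hPN, hP0⟩ := (Submodule.ne_bot_iff N0).mp hN0
    rcases hPc : (P : (W'⁄K).Point) with _ | ⟨x, y, h⟩
    · exact absurd (Subtype.ext hPc) hP0
    · exact ⟨x, (hTmem x).mpr ⟨P, hPN, y, h, hPc⟩⟩
  have hlow : (v (p : K))⁻¹ ≤ ∏ r ∈ T, v r :=
    inv_valuation_prime_le_prod A p hp hA T hTne hTstab hTv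
  have hvp : 0 < v (p : K) := (Valuation.pos_iff _).mpr hp0
  -- every root of valuation `> 1` is in `T`
  have hall : ∀ r ∈ f.roots, 1 < v r → r ∈ T := by
    intro r hr hvr
    by_contra hrT
    have hT' : ∀ s ∈ insert r T, s ∈ f.roots ∧ 1 < v s := by
      intro s hs
      rcases Finset.mem_insert.mp hs with rfl | hs
      · exact ⟨hr, hvr⟩
      · exact ⟨Multiset.mem_toFinset.mp (Finset.mem_filter.mp hs).1, hTv s hs⟩
    have hg := gauss_bound_finset v (p : K) f.roots hint (insert r T) hT'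
    rw [Finset.prod_insert hrT] at hg
    have h1 : v (p : K) * (v r * (v (p : K))⁻¹) ≤ 1 :=
      le_trans (by gcongr) hg
    rw [mul_comm (v r), ← mul_assoc, mul_inv_cancel₀ hvp.ne', one_mul] at h1
    exact absurd hvr (not_lt.mpr h1)
  -- conclusion
  rcases hPc : (P' : (W'⁄K).Point) with _ | ⟨x, y, h⟩
  · have : P' = 0 := Subtype.ext hPc
    rw [this]; exact N0.zero_mem
  · rw [hPc] at hP'
    have hxT : x ∈ T := hall x (hroot x (aeval_eq_zero_of_mem Q hQ P' hPc)) hP'
    obtain ⟨P, hPN, y₀, h₀, hPe⟩ := (hTmem x).mp hxT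
    rcases Affine.Y_eq_of_X_eq h.1 h₀.1 rfl with hy | hy
    · have : P' = P := by
        apply Subtype.ext
        rw [hPc, hPe]
        subst hy
        rfl
      rw [this]; exact hPN
    · have : P' = -P := by
        apply Subtype.ext
        rw [hPc, Submodule.coe_neg, hPe, Point.neg_some]
        subst hy
        rfl
      rw [this]; exact N0.neg_mem hPN

/-- **(T5c)** Dichotomy at `p`: the inertia group at `A` acts trivially on the line `N0` or on
`E[p] / N0`.  The hypothesis `ha` is (T5a). -/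
theorem inertia_line_dichotomy
    (A : ValuationSubring K) (p : ℕ) (hp : p.Prime) (hA : A.LiesOverPrime p)
    (hW : IntegralCoeffs (W'⁄K) A.valuation)
    (Q : ℤ[X]) (hQlc : Q.leadingCoeff = p)
    (hQ : ∀ (x y : K) (h : (W'⁄K).Nonsingular x y),
      (p : ℤ) • Point.some x y h = 0 → aeval x Q = 0)
    (N0 : Submodule (ZMod p) (Submodule.torsionBy ℤ (W'⁄K).Point p))
    (hstab : IsGaloisStable ℚ N0) (hN0 : N0 ≠ ⊥)
    (hline : ∀ x ∈ N0, x ≠ 0 → ∀ y ∈ N0, ∃ k : ℤ, y = k • x)
    (ha : ∀ σ ∈ A.inertiaSubgroupIn ℚ, ∀ P : Submodule.torsionBy ℤ (W'⁄K).Point p,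
      ¬ InKer (W'⁄K) A.valuation (P : (W'⁄K).Point) →
      InKer (W'⁄K) A.valuation ((σ • P - P : Submodule.torsionBy ℤ (W'⁄K).Point p) :
        (W'⁄K).Point)) :
    (∀ σ ∈ A.inertiaSubgroupIn ℚ, ∀ x ∈ N0, σ • x = x) ∨
    (∀ σ ∈ A.inertiaSubgroupIn ℚ, ∀ x : Submodule.torsionBy ℤ (W'⁄K).Point p,
      σ • x - x ∈ N0) := by
  classical
  by_cases hsub : ∀ P ∈ N0, InKer (W'⁄K) A.valuation (P : (W'⁄K).Point)
  · right
    intro σ hσ x
    by_cases hx : InKer (W'⁄K) A.valuation (x : (W'⁄K).Point)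
    · have hxN : x ∈ N0 := mem_of_inKer_of_line_le A p hp hA Q hQlc hQ N0 hstab hN0 hsub x hx
      exact N0.sub_mem (hstab σ x hxN) hxN
    · exact mem_of_inKer_of_line_le A p hp hA Q hQlc hQ N0 hstab hN0 hsub _ (ha σ hσ x hx)
  · left
    push Not at hsub
    obtain ⟨P1, hP1N, hP1⟩ := hsub
    -- no nonzero element of `N0` is in the kernel of reduction
    have hnone : ∀ x ∈ N0, x ≠ 0 → ¬ InKer (W'⁄K) A.valuation (x : (W'⁄K).Point) := by
      intro x hxN hx0 hxK
      obtain ⟨k, hk⟩ := hline x hxN hx0 P1 hP1N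
      apply hP1
      rw [hk, Submodule.coe_smul_of_tower]
      exact inKer_zsmul hW hxK k
    intro σ hσ x hxN
    by_cases hx0 : x = 0
    · rw [hx0]
      exact smul_zero (A := Submodule.torsionBy ℤ (W'⁄K).Point (p : ℤ)) σ
    · have h1 := ha σ hσ x (hnone x hxN hx0)
      have h2 : σ • x - x ∈ N0 := N0.sub_mem (hstab σ x hxN) hxN
      by_contra hne
      exact hnone _ h2 (sub_ne_zero.mpr hne) h1

end main

end Fermat.Agent.S13.H64
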